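import Mathlib
import Fermat.Agent.S37.EvalBasic
import Fermat.Agent.S37.Gal
import Fermat.Agent.S37.Fibre
import Fermat.Agent.Lib.KroneckerCong

/-!
# S37 — `[ES]`: Eichler–Shimura on places, part 1: the two sides of the polynomial identity
(helper94)

`es_of : Plan2.Kron A N ℓ → Plan2.ChartHecke A N ℓ → Plan2.Sep A N → Plan2.ES A N ℓ`
(`ℓ` prime, `char k = ℓ`, residue fields of the places of `F_{N,k}` equal to `k`).

Let `P` be a place of `F_N`, `W` the places of `F_{Nℓ}` over `P` along `β`, with ramification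
indices `e_W`, and `P_W` the restriction of `W` along `α`; so `T_ℓ P = ∑ e_W P_W`.  For `u` in the
chart ring of `P`, the characteristic polynomial `χ` of `α u` over `β F_N` has coefficients in the
chart ring of `P`, with value `∏ (X - u(P_W)) ^ e_W` at `P` (`[FIBRE]`), and reduction
`(X - ū(q^ℓ)) (X^ℓ - τ ū)` (`[KRON]`).  The evaluation property at `P` (for the coefficients) and
at the `P_W` (for `u`) gives

  `∏ (X - ū(r P_W)) ^ e_W = (X - ū(τ Q)) (X - ū(τ⁻¹ Q)) ^ ℓ`,   `Q = r P`,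

and a `u` separating the finitely many places involved (`[SEP]`) gives the identity of divisors.
-/

set_option autoImplicit false

noncomputable section

namespace Fermat.Agent.S37.ES

open ModularCurve AlgebraicCurve Polynomial Fermat.Agent.S24 Fermat.Agent.S18.Content
  Fermat.Agent.S18.Plan Fermat.Agent.S37.Plan2 Fermat.Agent.S37.EvalBasic

set_option synthInstance.maxHeartbeats 400000
set_option maxHeartbeats 3200000

/-! ### Polynomials with values at a place -/

section PolyVal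

variable {K F : Type*} [Field K] [Field F] [Algebra K F] (v : Place K F)

/-- `p ∈ F[X]` has coefficientwise value `p' ∈ K[X]` at the place `v`. -/
def PolyVal (p : F[X]) (p' : K[X]) : Prop :=
  ∀ i : ℕ, p.coeff i - algebraMap K F (p'.coeff i) ∈ v.toValuationSubring.nonunits

variable {v}

theorem PolyVal.unique {p : F[X]} {p' p'' : K[X]} (h : PolyVal v p p') (h' : PolyVal v p p'') :
    p' = p'' :=
  Polynomial.ext fun i => value_unique v (h i) (h' i)

theorem polyVal_map (p' : K[X]) : PolyVal v (p'.map (algebraMap K F)) p' := fun i => by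
  rw [coeff_map, sub_self]
  exact v.toValuationSubring.nonunits.zero_mem

theorem polyVal_C {f : F} {c : K} (h : f - algebraMap K F c ∈ v.toValuationSubring.nonunits) :
    PolyVal v (C f) (C c) := fun i => by
  rw [coeff_C, coeff_C]
  split_ifs
  · exact h
  · rw [map_zero, sub_self]
    exact v.toValuationSubring.nonunits.zero_mem

theorem polyVal_X : PolyVal v (X : F[X]) (X : K[X]) := by
  have h := polyVal_map (v := v) (X : K[X])
  rwa [map_X] at h

theorem polyVal_X_pow (n : ℕ) : PolyVal v (X ^ n : F[X]) (X ^ n : K[X]) := by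
  have h := polyVal_map (v := v) (X ^ n : K[X])
  rwa [Polynomial.map_pow, map_X] at h

theorem PolyVal.sub {p q : F[X]} {p' q' : K[X]} (hp : PolyVal v p p') (hq : PolyVal v q q') :
    PolyVal v (p - q) (p' - q') := fun i => by
  have e : (p - q).coeff i - algebraMap K F ((p' - q').coeff i) =
      (p.coeff i - algebraMap K F (p'.coeff i)) - (q.coeff i - algebraMap K F (q'.coeff i)) := by
    rw [coeff_sub, coeff_sub, map_sub]
    ring
  rw [e]
  exact v.toValuationSubring.nonunits.sub_mem (hp i) (hq i)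

theorem PolyVal.mul {p q : F[X]} {p' q' : K[X]} (hp : PolyVal v p p') (hq : PolyVal v q q') :
    PolyVal v (p * q) (p' * q') := fun n => by
  rw [coeff_mul, coeff_mul, map_sum, ← Finset.sum_sub_distrib]
  refine sum_mem fun x _ => ?_
  have e : p.coeff x.1 * q.coeff x.2 - algebraMap K F (p'.coeff x.1 * q'.coeff x.2) =
      p.coeff x.1 * (q.coeff x.2 - algebraMap K F (q'.coeff x.2)) +
        algebraMap K F (q'.coeff x.2) * (p.coeff x.1 - algebraMap K F (p'.coeff x.1)) := by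
    rw [map_mul]
    ring
  rw [e]
  exact v.toValuationSubring.nonunits.add_mem
    (mul_mem_nonunits _ (mem_of_sub_mem_nonunits v (hp x.1)) (hq x.2))
    (mul_mem_nonunits _ (v.algebraMap_mem' _) (hp x.1))

end PolyVal

/-! ### Root multiplicities of split polynomials -/

theorem rootMultiplicity_X_sub_C_pow_eq {k : Type*} [Field k] [DecidableEq k] (a c : k) (n : ℕ) :
    rootMultiplicity c ((X - C a) ^ n) = if a = c then n else 0 := by
  split_ifs with h
  · subst h
    exact rootMultiplicity_X_sub_C_pow a n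
  · apply rootMultiplicity_eq_zero
    rw [IsRoot, eval_pow, eval_sub, eval_X, eval_C]
    exact pow_ne_zero _ (sub_ne_zero.mpr (Ne.symm h))

theorem rootMultiplicity_prod_X_sub_C_pow {k ι : Type*} [Field k] [DecidableEq k]
    [DecidableEq ι] (s : Finset ι) (v : ι → k) (e : ι → ℕ) (c : k) :
    rootMultiplicity c (∏ i ∈ s, (X - C (v i)) ^ e i) = ∑ i ∈ s, if v i = c then e i else 0 := by
  induction s using Finset.induction_on with
  | empty => simp
  | insert a s ha ih =>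
    rw [Finset.prod_insert ha, Finset.sum_insert ha, rootMultiplicity_mul, ih,
      rootMultiplicity_X_sub_C_pow_eq]
    exact mul_ne_zero (pow_ne_zero _ (X_sub_C_ne_zero _))
      (Finset.prod_ne_zero_iff.mpr fun i _ => pow_ne_zero _ (X_sub_C_ne_zero _))

/-! ### The coefficientwise automorphisms of `F_{N,k}` -/

variable (A : ValuationSubring Kbar) (N : ℕ) [NeZero N]

theorem coeffAut_smul_jkEl (τ : kk A ≃+* kk A) :
    Defs.coeffAut (kk A) N τ • jkEl A N = jkEl A N :=
  Subtype.ext (coeffMap_jqModC _)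

theorem finPlk_smul_iff (τ : kk A ≃+* kk A) (Q : Place (kk A) (Fk A N)) :
    FinPlk A N (Defs.coeffAut (kk A) N τ • Q) ↔ FinPlk A N Q := by
  unfold FinPlk
  conv_lhs => rw [← coeffAut_smul_jkEl A N τ]
  exact Gal.smul_mem_smul_iff _ _ _

theorem coeffAut_smul_algebraMap (τ : kk A ≃+* kk A) (c : kk A) :
    Defs.coeffAut (kk A) N τ • algebraMap (kk A) (Fk A N) c =
      algebraMap (kk A) (Fk A N) (τ c) :=
  SemilinearAut.smul_algebraMap _ c

theorem coe_coeffAut_inv_smul (τ : kk A ≃+* kk A) (x : Fk A N) :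
    (((Defs.coeffAut (kk A) N τ)⁻¹ • x : Fk A N) : Omk A) =
      coeffMap ((τ.symm : kk A ≃+* kk A) : kk A →+* kk A) (x : Omk A) := by
  rw [← map_inv]
  rfl

section Frob

variable (ℓ : ℕ) [Fact ℓ.Prime] [CharP (kk A) ℓ] (τ : kk A ≃+* kk A) (hτ : ∀ x, τ x = x ^ ℓ)

include hτ in
theorem coe_inv_smul_pow (x : Fk A N) :
    ((((Defs.coeffAut (kk A) N τ)⁻¹ • x) ^ ℓ : Fk A N) : Omk A) =
      qExpand (kk A) ℓ (x : Omk A) := by
  have : NeZero ℓ := ⟨(Fact.out : ℓ.Prime).ne_zero⟩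
  have h1 : ((((Defs.coeffAut (kk A) N τ)⁻¹ • x) ^ ℓ : Fk A N) : Omk A) =
      (coeffMap ((τ.symm : kk A ≃+* kk A) : kk A →+* kk A) (x : Omk A)) ^ ℓ := by
    rw [← coe_coeffAut_inv_smul]
    rfl
  rw [h1, Lib.KroneckerCong.pow_char_eq, coeffMap_coeffMap]
  congr 1
  conv_rhs => rw [← coeffMap_id (x : Omk A)]
  refine coeffMap_congr (RingHom.ext fun c => ?_) _
  show frobenius (kk A) ℓ (τ.symm c) = c
  rw [frobenius_def, ← hτ, RingEquiv.apply_symm_apply]

end Frob

/-! ### The characteristic polynomial of `α u` over `β F_N` -/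

section Chi

variable (ℓ : ℕ) [NeZero ℓ]

/-- The characteristic polynomial of `α u` over `β F_N`. -/
def chi (u : FN N) : (FN N)[X] :=
  letI := algebraAlong (heckeBetaBar Kbar N ℓ)
  haveI : Module.Finite (FN N) (FN (N * ℓ)) := HeckeInputs.finiteAlong_beta N ℓ
  LinearMap.charpoly (LinearMap.mulLeft (FN N) (heckeAlphaBar Kbar N ℓ u))

/-- `∏_W (X - val (α_* W)) ^ e_β(W)`, the product over the places `W` over `P` along `β`. -/
def fibPoly (hα : HeckeAlphaBarIntegral Kbar N ℓ) (hβ : HeckeBetaBarIntegral Kbar N ℓ)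
    [HasPrincipalDivisors Kbar (FN (N * ℓ))] (P : Place Kbar (FN N))
    (val : Place Kbar (FN N) → Kbar) : Kbar[X] :=
  ∏ W ∈ Place.fiberAlong (heckeBetaBar Kbar N ℓ) hβ P,
    (X - C (val (W.restrictAlong (heckeAlphaBar Kbar N ℓ) hα))) ^
      W.ramificationIndexAlong (heckeBetaBar Kbar N ℓ)

/-- `(X - x(q^ℓ)) (X^ℓ - τ x)`. -/
def kronPoly (τ : kk A ≃+* kk A) (x : Omk A) : (Omk A)[X] :=
  (X - C (qExpand (kk A) ℓ x)) * (X ^ ℓ - C (coeffMap (τ : kk A →+* kk A) x))

variable {A N ℓ}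

/-- `[FIBRE]` at every place of the type of `P`. -/
theorem polyVal_chi (hch : ChartHecke A N ℓ)
    (hα : HeckeAlphaBarIntegral Kbar N ℓ) (hβ : HeckeBetaBarIntegral Kbar N ℓ)
    [HasPrincipalDivisors Kbar (FN (N * ℓ))]
    (P : Place Kbar (FN N)) (u : FN N) (valK : Place Kbar (FN N) → Kbar)
    (hvalK : ∀ P' : Place Kbar (FN N), (FinPl A N P' ↔ FinPl A N P) →
      u - algebraMap Kbar (FN N) (valK P') ∈ P'.toValuationSubring.nonunits)
    (P' : Place Kbar (FN N)) (hP' : FinPl A N P' ↔ FinPl A N P) :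
    PolyVal P' (chi N ℓ u) (fibPoly N ℓ hα hβ P' valK) := by
  have : IsFF1 Kbar (FN N) := HeckeInputs.isFF1_FN N
  intro i
  refine Fibre.fibre_charpoly_correspondence (heckeAlphaBar Kbar N ℓ) (heckeBetaBar Kbar N ℓ)
    hα hβ (HeckeInputs.finiteAlong_beta N ℓ) P' u valK (fun W hW => hvalK _ ?_) i
  rw [Place.mem_fiberAlong] at hW
  rw [hch hα hβ W, hW]
  exact hP'

/-- The evaluation property applied to the coefficients of `χ`. -/
theorem eval_chi_coeff (hch : ChartHecke A N ℓ) (hkron : Kron A N ℓ)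
    {r : Place Kbar (FN N) → Place (kk A) (Fk A N)} (hr : Eval A N r)
    (hα : HeckeAlphaBarIntegral Kbar N ℓ) (hβ : HeckeBetaBarIntegral Kbar N ℓ)
    [HasPrincipalDivisors Kbar (FN (N * ℓ))]
    (τ : kk A ≃+* kk A) (hτ : ∀ x, τ x = x ^ ℓ)
    (P : Place Kbar (FN N)) (u : FN N) (hu : (u : Om) ∈ Ocal A)
    (valK : Place Kbar (FN N) → Kbar)
    (hvalK : ∀ P' : Place Kbar (FN N), (FinPl A N P' ↔ FinPl A N P) →
      u - algebraMap Kbar (FN N) (valK P') ∈ P'.toValuationSubring.nonunits)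
    (i : ℕ) :
    ∃ (hbA : (fibPoly N ℓ hα hβ P valK).coeff i ∈ A)
      (hk : (kronPoly A ℓ τ (red A ⟨(u : Om), hu⟩)).coeff i ∈ Fk A N),
      (⟨_, hk⟩ : Fk A N) - algebraMap (kk A) (Fk A N) (IsLocalRing.residue A ⟨_, hbA⟩) ∈
        (r P).toValuationSubring.nonunits := by
  obtain ⟨hc, hred⟩ := hkron (HeckeInputs.finiteAlong_beta N ℓ) τ hτ u hu i
  have hc' : (((chi N ℓ u).coeff i : FN N) : Om) ∈ Ocal A := hc
  have hred' : red A ⟨(((chi N ℓ u).coeff i : FN N) : Om), hc'⟩ =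
      (kronPoly A ℓ τ (red A ⟨(u : Om), hu⟩)).coeff i := hred
  have hchart_c : IsChart A N P ((chi N ℓ u).coeff i) := by
    rw [isChart_iff]
    exact ⟨hc', fun P' hP' => mem_of_sub_mem_nonunits P'
      (polyVal_chi hch hα hβ P u valK hvalK P' hP' i)⟩
  obtain ⟨hbA, hk', hv⟩ := eval_value hr P ((chi N ℓ u).coeff i) hc' hchart_c _
    (polyVal_chi hch hα hβ P u valK hvalK P Iff.rfl i)
  have hk : (kronPoly A ℓ τ (red A ⟨(u : Om), hu⟩)).coeff i ∈ Fk A N := by
    rw [← hred']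
    exact hk'
  refine ⟨hbA, hk, ?_⟩
  have e : (⟨_, hk⟩ : Fk A N) = ⟨red A ⟨_, hc'⟩, hk'⟩ := Subtype.ext hred'.symm
  rw [e]
  exact hv

end Chi

/-! ### The reduction side -/

theorem pow_mem_nonunits {F : Type*} [Field F] (B : ValuationSubring F) {x : F}
    (hx : x ∈ B.nonunits) {n : ℕ} (hn : n ≠ 0) : x ^ n ∈ B.nonunits := by
  rw [ValuationSubring.mem_nonunits_iff] at hx ⊢
  rw [map_pow]
  exact pow_lt_one₀ zero_le hx hn

section Main

variable (ℓ : ℕ) [NeZero ℓ] [Fact ℓ.Prime] [CharP (kk A) ℓ]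

variable {A N ℓ}

/-- The polynomial `(X - ū(q^ℓ)) (X^ℓ - τ ū)` has coefficients in `F_{N,k}`, and value
`(X - ū(τ Q)) (X - ū(τ⁻¹ Q))^ℓ` at `Q`. -/
theorem polyVal_kron (τ : kk A ≃+* kk A) (hτ : ∀ x, τ x = x ^ ℓ)
    (Q : Place (kk A) (Fk A N)) (x : Fk A N) (c₁ c₂ : kk A)
    (h₁ : x - algebraMap (kk A) (Fk A N) c₁ ∈
      (Defs.coeffAut (kk A) N τ • Q).toValuationSubring.nonunits)
    (h₂ : x - algebraMap (kk A) (Fk A N) c₂ ∈
      ((Defs.coeffAut (kk A) N τ)⁻¹ • Q).toValuationSubring.nonunits) :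
    ∃ RF : (Fk A N)[X],
      (∀ i, ((RF.coeff i : Fk A N) : Omk A) = (kronPoly A ℓ τ (x : Omk A)).coeff i) ∧
      PolyVal Q RF ((X - C c₁) * (X - C c₂) ^ ℓ) := by
  have hcharF : CharP (Fk A N) ℓ :=
    charP_of_injective_algebraMap (algebraMap (kk A) (Fk A N)).injective ℓ
  refine ⟨(X - C (((Defs.coeffAut (kk A) N τ)⁻¹ • x) ^ ℓ)) *
    (X ^ ℓ - C (Defs.coeffAut (kk A) N τ • x)), fun i => ?_, ?_⟩
  · have hmap : ((X - C (((Defs.coeffAut (kk A) N τ)⁻¹ • x) ^ ℓ)) *
        (X ^ ℓ - C (Defs.coeffAut (kk A) N τ • x)) : (Fk A N)[X]).map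
          (algebraMap (Fk A N) (Omk A)) = kronPoly A ℓ τ (x : Omk A) := by
      rw [kronPoly, Polynomial.map_mul, Polynomial.map_sub, Polynomial.map_sub,
        Polynomial.map_pow, map_X, map_C, map_C]
      have e1 : algebraMap (Fk A N) (Omk A) (((Defs.coeffAut (kk A) N τ)⁻¹ • x) ^ ℓ) =
          qExpand (kk A) ℓ (x : Omk A) := coe_inv_smul_pow A N ℓ τ hτ x
      have e2 : algebraMap (Fk A N) (Omk A) (Defs.coeffAut (kk A) N τ • x) =
          coeffMap (τ : kk A →+* kk A) (x : Omk A) := rfl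
      rw [e1, e2]
    rw [← hmap, coeff_map]
    rfl
  · have e : ((X - C c₁) * (X - C c₂) ^ ℓ : (kk A)[X]) = (X - C c₁) * (X ^ ℓ - C (c₂ ^ ℓ)) := by
      rw [sub_pow_char, ← C_pow]
    rw [e]
    refine (polyVal_X.sub (polyVal_C ?_)).mul ((polyVal_X_pow ℓ).sub (polyVal_C ?_))
    · have h := (Gal.smul_mem_nonunits_smul_iff (Defs.coeffAut (kk A) N τ)⁻¹
        (Defs.coeffAut (kk A) N τ • Q) _).mpr h₁
      rw [inv_smul_smul, smul_sub, ← map_inv, coeffAut_smul_algebraMap] at h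
      have h' := pow_mem_nonunits _ h (Fact.out : ℓ.Prime).ne_zero
      rw [sub_pow_char, ← map_pow] at h'
      have e3 : ((τ⁻¹ : kk A ≃+* kk A) c₁) ^ ℓ = c₁ := by
        rw [← hτ]
        exact τ.apply_symm_apply c₁
      rw [e3, map_inv] at h'
      exact h'
    · have h := (Gal.smul_mem_nonunits_smul_iff (Defs.coeffAut (kk A) N τ)
        ((Defs.coeffAut (kk A) N τ)⁻¹ • Q) _).mpr h₂
      rw [smul_inv_smul, smul_sub, coeffAut_smul_algebraMap, hτ] at h
      exact h

end Main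

end Fermat.Agent.S37.ES
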